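import Mathlib
import Fermat.Agent.S25.H146.GlueSec
import Fermat.Agent.S25.H326.Rig

/-!
# Row S26, block PIC, leaf DICT26 (helper266), part 1: frames

A *frame* of an `𝒪_X`-module `M` for a family of opens `U i` and functions
`g i j ∈ Γ(X, U i ⊓ U j)` is a family of local generators `s i ∈ Γ(M, U i)` with
`s i = g i j • s j` on `U i ⊓ U j`.  (So `M` is the invertible module with transition functions
`g`.)  Everything here is sectionwise.

* `IsFrame.refine`, `IsFrame.twist`, `IsFrame.map_iso` : refinement of the cover, change of the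
  generators by units, transport along an isomorphism;
* `IsFrame.exists_hom`, `IsFrame.exists_iso` : two modules with frames for the same `(U, g)`
  (`U` a cover) are isomorphic;
* `IsFrame.compare` : two frames of the same module differ by units `h i` with
  `g i j * h j = h i * g' i j`.
-/

set_option autoImplicit false

universe u

open CategoryTheory AlgebraicGeometry TopologicalSpace Opposite

namespace Fermat.Agent.S26.H266

open Fermat.Agent.S25
open Fermat.Agent.S25.H626 (res resO res_res res_smul res_add resO_resO resO_mul resO_one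
  IsLocalGenerator)

variable {X : Scheme.{u}}

/-- `s` is a frame of `M` with transition functions `g` on the family of opens `U`. -/
structure IsFrame {ι : Type*} (M : X.Modules) (U : ι → X.Opens) (g : ∀ i j, Γ(X, U i ⊓ U j))
    (s : ∀ i, Γ(M, U i)) : Prop where
  gen : ∀ i, IsLocalGenerator M (U i) (s i)
  trans : ∀ i j, res M (inf_le_left : U i ⊓ U j ≤ U i) (s i) =
    g i j • res M (inf_le_right : U i ⊓ U j ≤ U j) (s j)

/-! ## Sectionwise morphisms defined on a generator -/

section SecHomOfGen

variable {M M' : X.Modules} {V : X.Opens} {s : Γ(M, V)}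

/-- The sectionwise morphism over `V` sending the local generator `s` to `t`. -/
noncomputable def secHomOfGen (hs : IsLocalGenerator M V s) (t : Γ(M', V)) :
    H146.SecHom M M' V where
  app W hW x := H326.coord hs hW x • res M' hW t
  app_add W hW x y := by rw [H326.coord_add, add_smul]
  app_smul W hW r x := by rw [H326.coord_smul, mul_smul]
  app_res W W' hW hle x := by rw [H326.coord_res, res_smul, res_res]

theorem secHomOfGen_app (hs : IsLocalGenerator M V s) (t : Γ(M', V)) (W : X.Opens) (hW : W ≤ V)
    (x : Γ(M, W)) : (secHomOfGen hs t).app W hW x = H326.coord hs hW x • res M' hW t := rfl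

theorem secHomOfGen_gen (hs : IsLocalGenerator M V s) (t : Γ(M', V)) :
    (secHomOfGen hs t).app V le_rfl s = t := by
  rw [secHomOfGen_app]
  have h := H326.coord_gen hs (le_refl V)
  rw [H626.res_id] at h
  rw [h, one_smul, H626.res_id]

theorem secHomOfGen_isIso (hs : IsLocalGenerator M V s) {t : Γ(M', V)}
    (ht : IsLocalGenerator M' V t) : (secHomOfGen hs t).IsIso := by
  intro W hW
  have h1 : (secHomOfGen hs t).app W hW =
      (fun r : Γ(X, W) => r • res M' hW t) ∘ (Equiv.ofBijective _ (hs W hW)).symm := rfl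
  rw [h1]
  exact (ht W hW).comp (Equiv.bijective _)

end SecHomOfGen

namespace IsFrame

variable {ι : Type*} {M M' : X.Modules} {U : ι → X.Opens} {g g' : ∀ i j, Γ(X, U i ⊓ U j)}
  {s : ∀ i, Γ(M, U i)} {s' : ∀ i, Γ(M', U i)}

/-- The transition relation on any open contained in `U i ⊓ U j`. -/
theorem trans_on (hs : IsFrame M U g s) (i j : ι) {W : X.Opens} (hi : W ≤ U i) (hj : W ≤ U j) :
    res M hi (s i) = resO (le_inf hi hj) (g i j) • res M hj (s j) := by
  have := congrArg (res M (le_inf hi hj)) (hs.trans i j)
  rwa [res_res, res_smul, res_res] at this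

/-- The transition functions of a frame satisfy the cocycle identity. -/
theorem cocycle_on (hs : IsFrame M U g s) (i j k : ι) {W : X.Opens} (hi : W ≤ U i)
    (hj : W ≤ U j) (hk : W ≤ U k) :
    resO (le_inf hi hj) (g i j) * resO (le_inf hj hk) (g j k) = resO (le_inf hi hk) (g i k) := by
  apply (hs.gen k W hk).1
  simp only
  rw [mul_smul, ← hs.trans_on j k hj hk, ← hs.trans_on i j hi hj, ← hs.trans_on i k hi hk]

/-- The transition functions of a frame are units. -/
theorem isUnit_g (hs : IsFrame M U g s) (i j : ι) : IsUnit (g i j) := by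
  have hi : U i ⊓ U j ≤ U i := inf_le_left
  have hj : U i ⊓ U j ≤ U j := inf_le_right
  have h := H146.isUnit_of_smul_eq_of_isLocalGenerator
    (H146.isLocalGenerator_res (hs.gen j) hj) (H146.isLocalGenerator_res (hs.gen i) hi)
    (hs.trans i j).symm
  exact h

/-- Transport of a frame along an isomorphism. -/
theorem map_iso (hs : IsFrame M U g s) (e : M ≅ M') :
    IsFrame M' U g (fun i => e.hom.app (U i) (s i)) where
  gen i := by
    intro W hW
    have h1 : (fun r : Γ(X, W) => r • res M' hW (e.hom.app (U i) (s i))) =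
        (e.hom.app W) ∘ (fun r : Γ(X, W) => r • res M hW (s i)) := by
      funext r
      simp only [Function.comp_apply]
      rw [Scheme.Modules.Hom.app_smul, H626.app_res]
    rw [h1]
    have hb : Function.Bijective (e.hom.app W) := by
      have : IsIso (e.hom.app W) := inferInstance
      exact ConcreteCategory.bijective_of_isIso (e.hom.app W)
    exact hb.comp (hs.gen i W hW)
  trans i j := by
    rw [← H626.app_res, ← H626.app_res, hs.trans i j, Scheme.Modules.Hom.app_smul]

/-- Refinement (and reindexing) of a frame. -/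
theorem refine (hs : IsFrame M U g s) {κ : Type*} (r : κ → ι) (V : κ → X.Opens)
    (hV : ∀ k, V k ≤ U (r k)) :
    IsFrame M V (fun k l => resO (inf_le_inf (hV k) (hV l)) (g (r k) (r l)))
      (fun k => res M (hV k) (s (r k))) where
  gen k := H146.isLocalGenerator_res (hs.gen (r k)) (hV k)
  trans k l := by
    rw [res_res, res_res]
    exact hs.trans_on (r k) (r l) _ _

/-- Change of a frame by units. -/
theorem twist (hs : IsFrame M U g s) (h : ∀ i, Γ(X, U i)) (hh : ∀ i, IsUnit (h i))
    (hg : ∀ i j, g' i j * resO (inf_le_right : U i ⊓ U j ≤ U j) (h j) =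
      resO (inf_le_left : U i ⊓ U j ≤ U i) (h i) * g i j) :
    IsFrame M U g' (fun i => h i • s i) where
  gen i := by
    intro W hW
    have h1 : (fun r : Γ(X, W) => r • res M hW (h i • s i)) =
        (fun r : Γ(X, W) => r • res M hW (s i)) ∘ (fun r : Γ(X, W) => r * resO hW (h i)) := by
      funext r
      simp only [Function.comp_apply]
      rw [res_smul, mul_smul]
    rw [h1]
    refine (hs.gen i W hW).comp ?_
    have hu : IsUnit (resO hW (h i)) := H326.isUnit_resO hW (hh i)
    exact hu.unit.mulRight_bijective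
  trans i j := by
    rw [res_smul, res_smul, hs.trans i j, smul_smul, smul_smul, hg i j]

/-- **Morphisms from frames.** -/
theorem exists_hom (hU : ⨆ i, U i = ⊤) (hs : IsFrame M U g s) (t : ∀ i, Γ(M', U i))
    (ht : ∀ i j, res M' (inf_le_left : U i ⊓ U j ≤ U i) (t i) =
      g i j • res M' (inf_le_right : U i ⊓ U j ≤ U j) (t j)) :
    ∃ ψ : M ⟶ M', ∀ (i : ι) (W : X.Opens) (hW : W ≤ U i) (x : Γ(M, W)),
      ψ.app W x = H326.coord (hs.gen i) hW x • res M' hW (t i) := by
  have ht_on : ∀ (i j : ι) (W : X.Opens) (hi : W ≤ U i) (hj : W ≤ U j),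
      res M' hi (t i) = resO (le_inf hi hj) (g i j) • res M' hj (t j) := by
    intro i j W hi hj
    have := congrArg (res M' (le_inf hi hj)) (ht i j)
    rwa [res_res, res_smul, res_res] at this
  obtain ⟨ψ, hψ⟩ := H146.exists_hom_of_secHoms U hU (fun i => secHomOfGen (hs.gen i) (t i))
    (by
      intro i j W hi hj x
      rw [secHomOfGen_app, secHomOfGen_app, ht_on i j W hi hj, smul_smul]
      congr 1
      symm
      apply H326.coord_eq_of_smul_eq
      rw [mul_smul, ← hs.trans_on i j hi hj, H326.coord_smul_gen])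
  exact ⟨ψ, fun i W hW x => hψ i W hW x⟩

/-- **Uniqueness of the module with given transition functions.** -/
theorem exists_iso (hU : ⨆ i, U i = ⊤) (hs : IsFrame M U g s) (hs' : IsFrame M' U g s') :
    ∃ ψ : M ≅ M', ∀ i, ψ.hom.app (U i) (s i) = s' i := by
  obtain ⟨ψ, hψ⟩ := hs.exists_hom hU s' hs'.trans
  have hiso : IsIso ψ := H146.isIso_of_secHoms U hU (fun i => secHomOfGen (hs.gen i) (s' i))
    (fun i => secHomOfGen_isIso (hs.gen i) (hs'.gen i)) ψ (fun i W hW x => hψ i W hW x)
  refine ⟨asIso ψ, fun i => ?_⟩
  have := hψ i (U i) le_rfl (s i)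
  rw [asIso_hom, this]
  exact secHomOfGen_gen (hs.gen i) (s' i)

/-- Two frames of the same module (on the same opens) differ by units. -/
theorem compare {s₂ : ∀ i, Γ(M, U i)} (hs : IsFrame M U g s) (hs₂ : IsFrame M U g' s₂) :
    ∃ h : ∀ i, Γ(X, U i), (∀ i, IsUnit (h i)) ∧ (∀ i, s i = h i • s₂ i) ∧
      ∀ i j, g i j * resO (inf_le_right : U i ⊓ U j ≤ U j) (h j) =
        resO (inf_le_left : U i ⊓ U j ≤ U i) (h i) * g' i j := by
  have hex : ∀ i, ∃ r : Γ(X, U i), r • s₂ i = s i := fun i =>
    (H146.bijective_smul_of_isLocalGenerator (hs₂.gen i)).2 (s i)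
  choose h hh using hex
  refine ⟨h, fun i => H146.isUnit_of_smul_eq_of_isLocalGenerator (hs₂.gen i) (hs.gen i) (hh i),
    fun i => (hh i).symm, fun i j => ?_⟩
  apply (hs₂.gen j (U i ⊓ U j) inf_le_right).1
  simp only
  rw [mul_smul, ← res_smul, hh j, ← hs.trans i j, mul_smul, ← hs₂.trans i j, ← res_smul, hh i]

end IsFrame

end Fermat.Agent.S26.H266
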