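import Mathlib
import Fermat.Agent.S26.H266.DictFrame
import Fermat.Agent.S25.H446.Triv
import Fermat.Agent.S25.H326.Transport
import Fermat.Agent.S25.H146.OpenImm

/-!
# Row S26, block PIC, leaf DICT26 (helper266), part 2: local generators versus trivialisations

For an open `V` of a scheme `Y` and a module `N` on `Y`:
* `trivSec m W x` : the function on `V.ι ⁻¹ᵁ W` attached to a section `x ∈ Γ(N, W)` by a morphism
  `m : (pullback V.ι).obj N ⟶ 𝒪_V`; it is semilinear and, for an isomorphism `m` and `W ≤ V`,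
  bijective;
* `isUnit_trivSec_of_gen` : a trivialisation sends a local generator to a unit;
* `isLocalGenerator_of_isUnit_trivSec` : a section sent to a unit by a trivialisation is a local
  generator;
* `nonempty_triv_of_gen` : a local generator on `V` gives a trivialisation
  `(pullback V.ι).obj N ≅ 𝒪_V`;
* `isLocalGenerator_pbSec` : **the pull-back of a local generator is a local generator**.
-/

set_option autoImplicit false

universe u

open CategoryTheory AlgebraicGeometry TopologicalSpace Opposite

namespace Fermat.Agent.S26.H266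

open Fermat.Agent.S25
open Fermat.Agent.S25.H626 (res resO res_res res_smul res_add resO_resO resO_mul resO_one
  IsLocalGenerator unitMod toUnit ofUnit)

noncomputable section

variable {X Y : Scheme.{u}}

/-! ## The unit module -/

theorem isLocalGenerator_one (Y : Scheme.{u}) (V : Y.Opens) :
    IsLocalGenerator (unitMod Y) V (toUnit Y V 1) := by
  intro W hW
  have h1 : (fun r : Γ(Y, W) => r • res (unitMod Y) hW (toUnit Y V 1)) = toUnit Y W := by
    funext r
    rw [H626.res_toUnit_one, H626.smul_toUnit_one]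
  rw [h1]
  exact H626.toUnit_bijective Y W

/-! ## The comparison map of a trivialisation -/

section TrivSec

variable (V : Y.Opens) {N : Y.Modules}

/-- The function attached to a section by `m : (pullback V.ι).obj N ⟶ 𝒪_V`. -/
def trivSec (m : (Scheme.Modules.pullback V.ι).obj N ⟶ unitMod V.toScheme) (W : Y.Opens)
    (x : Γ(N, W)) : Γ(V.toScheme, V.ι ⁻¹ᵁ W) :=
  ofUnit V.toScheme _ (m.app (V.ι ⁻¹ᵁ W) (H446.pbSec V.ι N W x))

variable {V}
variable (m : (Scheme.Modules.pullback V.ι).obj N ⟶ unitMod V.toScheme)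

theorem trivSec_smul (W : Y.Opens) (r : Γ(Y, W)) (x : Γ(N, W)) :
    trivSec V m W (r • x) = V.ι.app W r * trivSec V m W x := by
  unfold trivSec
  rw [H446.pbSec_smul, Scheme.Modules.Hom.app_smul]
  rfl

theorem trivSec_res {W W' : Y.Opens} (h : W' ≤ W) (x : Γ(N, W)) :
    trivSec V m W' (res N h x) = resO (V.ι.preimage_mono h) (trivSec V m W x) := by
  unfold trivSec
  have h1 := H446.pbSec_res_apply V.ι N h x
  have h2 : H446.pbSec V.ι N W' (res N h x) =
      res ((Scheme.Modules.pullback V.ι).obj N) (V.ι.preimage_mono h)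
        (H446.pbSec V.ι N W x) := h1
  rw [h2, H626.app_res]
  rfl

theorem trivSec_bijective [IsIso m] (W : Y.Opens) (hW : W ≤ V) :
    Function.Bijective (trivSec V m W) := by
  have h1 : Function.Bijective (H446.pbSec V.ι N W) :=
    H446.pbSec_bijective V.ι N W (by rw [Scheme.Opens.opensRange_ι]; exact hW)
  have h2 : Function.Bijective (m.app (V.ι ⁻¹ᵁ W)) := by
    have : IsIso (m.app (V.ι ⁻¹ᵁ W)) := inferInstance
    exact ConcreteCategory.bijective_of_isIso (m.app (V.ι ⁻¹ᵁ W))
  exact h2.comp h1

theorem bijective_ι_app (W : Y.Opens) (hW : W ≤ V) : Function.Bijective (V.ι.app W) :=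
  H146.bijective_app_of_le_opensRange V.ι W (by rw [Scheme.Opens.opensRange_ι]; exact hW)

/-- A trivialisation sends a local generator to a unit. -/
theorem isUnit_trivSec_of_gen [IsIso m] {W : Y.Opens} (hW : W ≤ V) {t : Γ(N, W)}
    (ht : IsLocalGenerator N W t) : IsUnit (trivSec V m W t) := by
  obtain ⟨x, hx⟩ := (trivSec_bijective m W hW).2 1
  obtain ⟨r, hr⟩ := (H146.bijective_smul_of_isLocalGenerator ht).2 x
  simp only at hr
  rw [← hr, trivSec_smul] at hx
  exact IsUnit.of_mul_eq_one_right _ hx

/-- A section sent to a unit by a trivialisation is a local generator. -/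
theorem isLocalGenerator_of_isUnit_trivSec [IsIso m] {W : Y.Opens} (hW : W ≤ V) {t : Γ(N, W)}
    (hu : IsUnit (trivSec V m W t)) : IsLocalGenerator N W t := by
  intro W' hW'
  have hb := trivSec_bijective m W' (hW'.trans hW)
  rw [← hb.of_comp_iff']
  have h1 : (trivSec V m W') ∘ (fun r : Γ(Y, W') => r • res N hW' t) =
      (fun a : Γ(V.toScheme, V.ι ⁻¹ᵁ W') =>
        a * resO (V.ι.preimage_mono hW') (trivSec V m W t)) ∘ (V.ι.app W') := by
    funext r
    simp only [Function.comp_apply]
    rw [trivSec_smul, trivSec_res]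
  rw [h1]
  have hu' : IsUnit (resO (V.ι.preimage_mono hW') (trivSec V m W t)) :=
    H326.isUnit_resO _ hu
  exact (hu'.unit.mulRight_bijective).comp (bijective_ι_app W' (hW'.trans hW))

end TrivSec

/-! ## A local generator gives a trivialisation -/

section OfGen

variable {V : Y.Opens} {N : Y.Modules} {t : Γ(N, V)}

/-- The sectionwise isomorphism `𝒪_Y ⟶ N` over `V` defined by a local generator. -/
def locHomOfGen (t : Γ(N, V)) : H326.LocHom V (unitMod Y) N where
  app W hW := AddMonoidHom.mk' (fun a => ofUnit Y W a • res N hW t) (fun a b => by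
    change (ofUnit Y W a + ofUnit Y W b) • res N hW t = _
    rw [add_smul])
  app_smul W hW r a := by
    change (r * ofUnit Y W a) • res N hW t = r • (ofUnit Y W a • res N hW t)
    rw [mul_smul]
  app_res W W' hW h a := by
    change (resO h (ofUnit Y W a)) • res N (h.trans hW) t = res N h (ofUnit Y W a • res N hW t)
    rw [res_smul, res_res]

theorem isBij_locHomOfGen (ht : IsLocalGenerator N V t) : (locHomOfGen t).IsBij := fun W hW =>
  ht W hW

/-- A local generator on `V` gives a trivialisation of the restriction to `V`. -/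
theorem nonempty_triv_of_gen (ht : IsLocalGenerator N V t) :
    Nonempty ((Scheme.Modules.pullback V.ι).obj N ≅ unitMod V.toScheme) := by
  have hle : V.ι.opensRange ≤ V := by rw [Scheme.Opens.opensRange_ι]
  have := H326.isIso_restrictHomOfLocHom V.ι hle (locHomOfGen t) (isBij_locHomOfGen ht)
  exact ⟨((Scheme.Modules.restrictFunctorIsoPullback V.ι).app N).symm ≪≫
    (asIso (H326.restrictHomOfLocHom V.ι hle (locHomOfGen t))).symm ≪≫
    (Scheme.Modules.restrictFunctorIsoPullback V.ι).app (unitMod Y) ≪≫
    Scheme.Modules.pullbackUnitIso V.ι⟩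

end OfGen

/-! ## Pull-back of local generators -/

/-- **The pull-back of a local generator is a local generator.** -/
theorem isLocalGenerator_pbSec (f : Y ⟶ X) {M : X.Modules} {U : X.Opens} {s : Γ(M, U)}
    (hs : IsLocalGenerator M U s) :
    IsLocalGenerator ((Scheme.Modules.pullback f).obj M) (f ⁻¹ᵁ U) (H446.pbSec f M U s) := by
  obtain ⟨m⟩ := nonempty_triv_of_gen hs
  have hu : IsUnit (trivSec U m.hom U s) := isUnit_trivSec_of_gen m.hom le_rfl hs
  have w : (f ∣_ U) ≫ U.ι = (f ⁻¹ᵁ U).ι ≫ f := morphismRestrict_ι f U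
  let m' := H446.pullbackTriv f U.ι (f ∣_ U) (f ⁻¹ᵁ U).ι w M m
  have key := H446.pullbackTriv_pbSec f U.ι (f ∣_ U) (f ⁻¹ᵁ U).ι w M m U s
  refine isLocalGenerator_of_isUnit_trivSec m'.hom le_rfl ?_
  have h2 : trivSec (f ⁻¹ᵁ U) m'.hom (f ⁻¹ᵁ U) (H446.pbSec f M U s) =
      resO (H446.preimage_le_of_comm f U.ι (f ∣_ U) (f ⁻¹ᵁ U).ι w U)
        ((f ∣_ U).app (U.ι ⁻¹ᵁ U) (trivSec U m.hom U s)) := key
  rw [h2]
  exact H326.isUnit_resO _ (hu.map ((f ∣_ U).app (U.ι ⁻¹ᵁ U)).hom)

end

end Fermat.Agent.S26.H266
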