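import Mathlib
import Fermat.Agent.S26.H266.DictTriv
import Fermat.Agent.S26.Pic.Theory

/-!
# Row S26, block PIC, leaf DICT26 (helper266), part 3: cocycles versus invertible modules

`Realizes L c` : the `𝒪_X`-module `L` has a frame with transition functions the Čech cocycle
`c : Pic.Cocycle X` (helper347's model).

* `exists_realizes` : every cocycle is realized (gluing, S25 G2 sectionwise);
* `Realizes.isInvertible` : a module realizing a cocycle is invertible;
* `Realizes.nonempty_iso_iff` : `L ≅ L'` iff the cocycles are cohomologous;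
* `realizes_unit_one` : the structure sheaf realizes the trivial cocycle;
* `Realizes.pullback` : `f^* L` realizes `c.pullback f`;
* `exists_realizes_of_isInvertible` : every invertible module realizes a cocycle.
-/

set_option autoImplicit false

universe u

open CategoryTheory AlgebraicGeometry TopologicalSpace Opposite

namespace Fermat.Agent.S26.H266

open Fermat.Agent.S25
open Fermat.Agent.S25.H626 (res resO res_res res_smul res_add resO_resO resO_mul resO_one
  IsLocalGenerator unitMod toUnit ofUnit)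

noncomputable section

variable {X Y : Scheme.{u}}

/-- The transition functions of a cocycle, as functions. -/
def gfun (c : Pic.Cocycle X) (x y : X) : Γ(X, c.U x ⊓ c.U y) := (c.g x y : Γ(X, c.U x ⊓ c.U y)ˣ)

theorem coe_picRes {U V : X.Opens} (h : V ≤ U) (a : Γ(X, U)ˣ) :
    ((Pic.res h a : Γ(X, V)ˣ) : Γ(X, V)) = resO h (a : Γ(X, U)) := rfl

/-- `L` is an invertible module with transition cocycle `c`. -/
def Realizes (L : X.Modules) (c : Pic.Cocycle X) : Prop :=
  ∃ s : ∀ x, Γ(L, c.U x), IsFrame L c.U (gfun c) s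

theorem iSup_U_eq_top {V : X → X.Opens} (hV : ∀ x, x ∈ V x) : ⨆ x, V x = ⊤ :=
  eq_top_iff.mpr fun x _ => Opens.mem_iSup.mpr ⟨x, hV x⟩

/-! ## Existence -/

section Exists

variable (c : Pic.Cocycle X)

theorem gfun_self_on {x : X} {W : X.Opens} (h : W ≤ c.U x ⊓ c.U x) :
    resO h (gfun c x x) = 1 := by
  have := congrArg (fun u : Γ(X, W)ˣ => (u : Γ(X, W))) (c.g_self_on h)
  exact this

theorem gfun_cocycle_on {x y z : X} {W : X.Opens} (hxy : W ≤ c.U x ⊓ c.U y)
    (hyz : W ≤ c.U y ⊓ c.U z) (hxz : W ≤ c.U x ⊓ c.U z) :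
    resO hxy (gfun c x y) * resO hyz (gfun c y z) = resO hxz (gfun c x z) := by
  have := congrArg (fun u : Γ(X, W)ˣ => (u : Γ(X, W))) (c.cocycle_on hxy hyz hxz)
  exact this

/-- The gluing datum attached to a cocycle. -/
def glueData : H326.GlueData X X where
  G := c.U
  P := fun _ => unitMod X
  τ := fun x y => H146.locSmul (gfun c x y) (H326.LocHom.id _ (unitMod X))
  τ_self := by
    intro x W hW s
    rw [H146.locSmul_app, gfun_self_on, one_smul]
    rfl
  τ_cocycle := by
    intro x y z W hxy hyz hxz s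
    rw [H146.locSmul_app, H146.locSmul_app, H146.locSmul_app, H326.LocHom.id_app,
      H326.LocHom.id_app, H326.LocHom.id_app, smul_smul, mul_comm, gfun_cocycle_on]

/-- **Every cocycle is realized by a module.** -/
theorem exists_realizes : ∃ L : X.Modules, Realizes L c := by
  obtain ⟨M, e, he, hcompat⟩ := H326.exists_glue (glueData c)
  have hex : ∀ x, ∃ s : Γ(M, c.U x), (e x).app (c.U x) le_rfl s = toUnit X (c.U x) 1 :=
    fun x => (he x (c.U x) le_rfl).2 _
  choose s hs using hex
  have hs_res : ∀ (x : X) (W : X.Opens) (hW : W ≤ c.U x),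
      (e x).app W hW (res M hW (s x)) = toUnit X W 1 := by
    intro x W hW
    have := (e x).app_res (c.U x) W le_rfl hW (s x)
    rw [this, hs x]
    exact H626.res_toUnit_one X hW
  refine ⟨M, s, ⟨fun x => ?_, fun x y => ?_⟩⟩
  · refine H146.isLocalGenerator_of_locApp (f := e x) (he x) le_rfl ?_
    change IsLocalGenerator (unitMod X) (c.U x) ((e x).app (c.U x) le_rfl (s x))
    rw [hs x]
    exact isLocalGenerator_one X (c.U x)
  · apply (he y (c.U x ⊓ c.U y) inf_le_right).1
    have h1 := hcompat x y (c.U x ⊓ c.U y) le_rfl (res M inf_le_left (s x))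
    rw [(e y).app_smul, hs_res y, ← h1, hs_res x]
    change (H146.locSmul (gfun c x y) (H326.LocHom.id _ (unitMod X))).app _ _ _ = _
    rw [H146.locSmul_app, H626.resO_id]
    rfl

end Exists

/-! ## Invertibility -/

theorem Realizes.isInvertible {L : X.Modules} {c : Pic.Cocycle X} (h : Realizes L c) :
    Scheme.Modules.IsInvertible L := by
  obtain ⟨s, hs⟩ := h
  exact ⟨fun x => ⟨c.U x, c.mem x, nonempty_triv_of_gen (hs.gen x)⟩⟩

/-! ## Isomorphisms versus cohomologous cocycles -/

theorem Realizes.of_iso {L L' : X.Modules} {c : Pic.Cocycle X} (h : Realizes L c)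
    (e : L ≅ L') : Realizes L' c := by
  obtain ⟨s, hs⟩ := h
  exact ⟨_, hs.map_iso e⟩

theorem Realizes.nonempty_iso_of_rel {L L' : X.Modules} {c c' : Pic.Cocycle X}
    (h : Realizes L c) (h' : Realizes L' c') (hr : Pic.Cocycle.Rel c c') : Nonempty (L ≅ L') := by
  obtain ⟨s, hs⟩ := h
  obtain ⟨s', hs'⟩ := h'
  obtain ⟨V, hV, hc, hc', u, H⟩ := hr
  have f1 := hs.refine id V hc
  have f2 := hs'.refine id V hc'
  have f3 := f2.twist (g' := fun x y => resO (inf_le_inf (hc x) (hc y)) (gfun c x y))
    (fun x => (u x : Γ(X, V x))) (fun x => (u x).isUnit) (fun x y => by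
      have := congrArg (fun a : Γ(X, V x ⊓ V y)ˣ => (a : Γ(X, V x ⊓ V y))) (H x y)
      exact this)
  obtain ⟨ψ, -⟩ := f1.exists_iso (iSup_U_eq_top hV) f3
  exact ⟨ψ⟩

theorem Realizes.rel_of_iso {L L' : X.Modules} {c c' : Pic.Cocycle X}
    (h : Realizes L c) (h' : Realizes L' c') (e : L ≅ L') : Pic.Cocycle.Rel c c' := by
  obtain ⟨s, hs⟩ := h.of_iso e
  obtain ⟨s', hs'⟩ := h'
  let V : X → X.Opens := fun x => c.U x ⊓ c'.U x
  have hc : ∀ x, V x ≤ c.U x := fun x => inf_le_left
  have hc' : ∀ x, V x ≤ c'.U x := fun x => inf_le_right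
  have f1 := hs.refine id V hc
  have f2 := hs'.refine id V hc'
  obtain ⟨h, hu, -, hh⟩ := f1.compare f2
  refine ⟨V, fun x => ⟨c.mem x, c'.mem x⟩, hc, hc', fun x => (hu x).unit, fun x y => ?_⟩
  apply Units.ext
  exact hh x y

/-- **Two modules realizing cocycles are isomorphic iff the cocycles are cohomologous.** -/
theorem Realizes.nonempty_iso_iff {L L' : X.Modules} {c c' : Pic.Cocycle X}
    (h : Realizes L c) (h' : Realizes L' c') : Nonempty (L ≅ L') ↔ Pic.Cocycle.Rel c c' :=
  ⟨fun ⟨e⟩ => h.rel_of_iso h' e, h.nonempty_iso_of_rel h'⟩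

/-! ## The unit -/

theorem realizes_unit_one (X : Scheme.{u}) : Realizes (unitMod X) (Pic.Cocycle.one X) := by
  refine ⟨fun _ => toUnit X ⊤ 1, ⟨fun _ => isLocalGenerator_one X ⊤, fun x y => ?_⟩⟩
  have : gfun (Pic.Cocycle.one X) x y = 1 := rfl
  rw [this, one_smul]

/-! ## Pull-back -/

theorem Realizes.pullback (f : Y ⟶ X) {L : X.Modules} {c : Pic.Cocycle X} (h : Realizes L c) :
    Realizes ((Scheme.Modules.pullback f).obj L) (c.pullback f) := by
  obtain ⟨s, hs⟩ := h
  refine ⟨fun y => H446.pbSec f L (c.U (f y)) (s (f y)),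
    ⟨fun y => isLocalGenerator_pbSec f (hs.gen (f y)), fun y y' => ?_⟩⟩
  have h1 := H446.pbSec_res_apply f L (inf_le_left : c.U (f y) ⊓ c.U (f y') ≤ c.U (f y))
    (s (f y))
  have h2 := H446.pbSec_res_apply f L (inf_le_right : c.U (f y) ⊓ c.U (f y') ≤ c.U (f y'))
    (s (f y'))
  have h3 := H446.pbSec_smul f L (c.U (f y) ⊓ c.U (f y')) (gfun c (f y) (f y'))
    (res L inf_le_right (s (f y')))
  have h4 := congrArg (H446.pbSec f L (c.U (f y) ⊓ c.U (f y'))) (hs.trans (f y) (f y'))
  have h5 : gfun (c.pullback f) y y' =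
      f.app (c.U (f y) ⊓ c.U (f y')) (gfun c (f y) (f y')) := by
    change (f.appLE _ _ _).hom _ = _
    rw [Scheme.Hom.app_eq_appLE]
    rfl
  have h6 : gfun (c.pullback f) y y' • res ((Scheme.Modules.pullback f).obj L)
        (inf_le_right : (c.pullback f).U y ⊓ (c.pullback f).U y' ≤ (c.pullback f).U y')
        (H446.pbSec f L (c.U (f y')) (s (f y'))) =
      f.app (c.U (f y) ⊓ c.U (f y')) (gfun c (f y) (f y')) •
        H446.pbSec f L (c.U (f y) ⊓ c.U (f y')) (res L inf_le_right (s (f y'))) := by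
    rw [h5]
    congr 1
    exact h2.symm
  exact (h1.symm.trans (h4.trans h3)).trans h6.symm

/-! ## Every invertible module realizes a cocycle -/

/-- A frame indexed by the points of `X` defines a cocycle. -/
theorem IsFrame.exists_cocycle {L : X.Modules} {U : X → X.Opens} (hU : ∀ x, x ∈ U x)
    {g : ∀ x y, Γ(X, U x ⊓ U y)} {s : ∀ x, Γ(L, U x)} (hs : IsFrame L U g s) :
    ∃ c : Pic.Cocycle X, Realizes L c := by
  let c : Pic.Cocycle X :=
    { U := U
      mem := hU
      g := fun x y => (hs.isUnit_g x y).unit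
      cocycle := fun x y z => by
        apply Units.ext
        exact hs.cocycle_on x y z (inf_le_left.trans inf_le_left)
          (inf_le_left.trans inf_le_right) inf_le_right }
  refine ⟨c, s, ⟨hs.gen, fun x y => ?_⟩⟩
  exact hs.trans x y

theorem exists_realizes_of_isInvertible {L : X.Modules} (hL : Scheme.Modules.IsInvertible L) :
    ∃ c : Pic.Cocycle X, Realizes L c := by
  have hgen := H626.hasLocalGenerators_of_isInvertible hL
  choose U hU s hs using hgen
  have hex : ∀ x y, ∃ r : Γ(X, U x ⊓ U y),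
      r • res L (inf_le_right : U x ⊓ U y ≤ U y) (s y) =
        res L (inf_le_left : U x ⊓ U y ≤ U x) (s x) := fun x y =>
    (H146.bijective_smul_of_isLocalGenerator
      (H146.isLocalGenerator_res (hs y) inf_le_right)).2 _
  choose g hg using hex
  exact IsFrame.exists_cocycle hU (g := g) (s := s) ⟨hs, fun x y => (hg x y).symm⟩

end

end Fermat.Agent.S26.H266
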