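import Mathlib
import Fermat.Agent.S26.H266.DictCocycle

/-!
# Row S26, block PIC, leaf DICT26 (helper266): the dictionary
`Pic.cechPic.Pic X`  ⟷  isomorphism classes of invertible `𝒪_X`-modules

`IsClassOf L a` : the module `L` is invertible with class `a` in the Čech Picard group
(helper347's model `Pic.cechPic`), i.e. `L` has a frame of local generators whose transition
functions form a cocycle representing `a`.

Summary (all proved, for every scheme `X : Scheme.{u}`):
* `exists_isClassOf a`                 : every class is the class of a module;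
* `IsClassOf.isInvertible`             : such a module is invertible (Prelude's `IsInvertible`);
* `exists_isClassOf_of_isInvertible`   : every invertible module has a class;
* `IsClassOf.nonempty_iso_iff`         : `L ≅ L' ↔ a = b`;
* `IsClassOf.of_iso`, `IsClassOf.unique`;
* `isClassOf_unit_zero`, `IsClassOf.eq_zero_iff` : `a = 0 ↔ L ≅ 𝒪_X`;
* `IsClassOf.pullback`                 : `f^* L` has class `Pic.cechPic.map f a`;
* `lineBundle a`, `isClassOf_lineBundle`, `lineBundle_map_iso`, `lineBundle_zero_iso` :
  a chosen module of class `a`.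
-/

set_option autoImplicit false

universe u

open CategoryTheory AlgebraicGeometry TopologicalSpace Opposite

namespace Fermat.Agent.S26.H266

open Fermat.Agent.S25
open Fermat.Agent.S25.H626 (unitMod)

noncomputable section

variable {X Y : Scheme.{u}}

/-- `L` is an invertible module whose class in the Čech Picard group is `a`. -/
def IsClassOf (L : X.Modules) (a : Pic.cechPic.Pic X) : Prop :=
  ∃ c : Pic.Cocycle X, Pic.cl c = a ∧ Realizes L c

theorem Realizes.isClassOf {L : X.Modules} {c : Pic.Cocycle X} (h : Realizes L c) :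
    IsClassOf L (Pic.cl c) := ⟨c, rfl, h⟩

/-- Every class is the class of a module. -/
theorem exists_isClassOf (a : Pic.cechPic.Pic X) : ∃ L : X.Modules, IsClassOf L a := by
  obtain ⟨c, rfl⟩ := Pic.cl_surjective a
  obtain ⟨L, hL⟩ := exists_realizes c
  exact ⟨L, hL.isClassOf⟩

/-- Every invertible module has a class. -/
theorem exists_isClassOf_of_isInvertible {L : X.Modules} (hL : Scheme.Modules.IsInvertible L) :
    ∃ a : Pic.cechPic.Pic X, IsClassOf L a := by
  obtain ⟨c, hc⟩ := exists_realizes_of_isInvertible hL
  exact ⟨_, hc.isClassOf⟩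

namespace IsClassOf

variable {L L' : X.Modules} {a b : Pic.cechPic.Pic X}

theorem isInvertible (h : IsClassOf L a) : Scheme.Modules.IsInvertible L := by
  obtain ⟨c, -, hc⟩ := h
  exact hc.isInvertible

theorem of_iso (h : IsClassOf L a) (e : L ≅ L') : IsClassOf L' a := by
  obtain ⟨c, hca, hc⟩ := h
  exact ⟨c, hca, hc.of_iso e⟩

/-- **Two modules are isomorphic iff their classes agree.** -/
theorem nonempty_iso_iff (h : IsClassOf L a) (h' : IsClassOf L' b) :
    Nonempty (L ≅ L') ↔ a = b := by
  obtain ⟨c, rfl, hc⟩ := h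
  obtain ⟨c', rfl, hc'⟩ := h'
  rw [hc.nonempty_iso_iff hc', Pic.cl_eq_cl]

theorem unique (h : IsClassOf L a) (h' : IsClassOf L b) : a = b :=
  (h.nonempty_iso_iff h').mp ⟨Iso.refl L⟩

theorem nonempty_iso (h : IsClassOf L a) (h' : IsClassOf L' a) : Nonempty (L ≅ L') :=
  (h.nonempty_iso_iff h').mpr rfl

end IsClassOf

/-- The structure sheaf has class `0`. -/
theorem isClassOf_unit_zero (X : Scheme.{u}) : IsClassOf (unitMod X) (0 : Pic.cechPic.Pic X) :=
  ⟨Pic.Cocycle.one X, Pic.cl_one, realizes_unit_one X⟩

/-- **A class vanishes iff the module is trivial.** -/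
theorem IsClassOf.eq_zero_iff {L : X.Modules} {a : Pic.cechPic.Pic X} (h : IsClassOf L a) :
    a = 0 ↔ Nonempty (L ≅ SheafOfModules.unit X.ringCatSheaf) :=
  (h.nonempty_iso_iff (isClassOf_unit_zero X)).symm

/-- **Compatibility with pull-back.** -/
theorem IsClassOf.pullback (f : Y ⟶ X) {L : X.Modules} {a : Pic.cechPic.Pic X}
    (h : IsClassOf L a) :
    IsClassOf ((Scheme.Modules.pullback f).obj L) (Pic.cechPic.map f a) := by
  obtain ⟨c, rfl, hc⟩ := h
  exact ⟨c.pullback f, (Pic.map_cl f c).symm, hc.pullback f⟩

/-! ## A chosen module for every class -/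

/-- A module of class `a` (chosen). -/
def lineBundle (a : Pic.cechPic.Pic X) : X.Modules := (exists_isClassOf a).choose

theorem isClassOf_lineBundle (a : Pic.cechPic.Pic X) : IsClassOf (lineBundle a) a :=
  (exists_isClassOf a).choose_spec

theorem isInvertible_lineBundle (a : Pic.cechPic.Pic X) :
    Scheme.Modules.IsInvertible (lineBundle a) :=
  (isClassOf_lineBundle a).isInvertible

theorem lineBundle_iso_iff (a b : Pic.cechPic.Pic X) :
    Nonempty (lineBundle a ≅ lineBundle b) ↔ a = b :=
  (isClassOf_lineBundle a).nonempty_iso_iff (isClassOf_lineBundle b)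

theorem lineBundle_zero_iso (X : Scheme.{u}) :
    Nonempty (lineBundle (0 : Pic.cechPic.Pic X) ≅ SheafOfModules.unit X.ringCatSheaf) :=
  (isClassOf_lineBundle (0 : Pic.cechPic.Pic X)).eq_zero_iff.mp rfl

theorem lineBundle_map_iso (f : Y ⟶ X) (a : Pic.cechPic.Pic X) :
    Nonempty (lineBundle (Pic.cechPic.map f a) ≅
      (Scheme.Modules.pullback f).obj (lineBundle a)) :=
  (isClassOf_lineBundle _).nonempty_iso ((isClassOf_lineBundle a).pullback f)

theorem exists_lineBundle_iso {L : X.Modules} (hL : Scheme.Modules.IsInvertible L) :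
    ∃ a : Pic.cechPic.Pic X, Nonempty (lineBundle a ≅ L) := by
  obtain ⟨a, ha⟩ := exists_isClassOf_of_isInvertible hL
  exact ⟨a, (isClassOf_lineBundle a).nonempty_iso ha⟩

/-- The class of the pull-back of a module vanishes iff the pull-back is trivial (the form used
for rigidifications). -/
theorem IsClassOf.map_eq_zero_iff (f : Y ⟶ X) {L : X.Modules} {a : Pic.cechPic.Pic X}
    (h : IsClassOf L a) :
    Pic.cechPic.map f a = 0 ↔
      Nonempty ((Scheme.Modules.pullback f).obj L ≅ SheafOfModules.unit Y.ringCatSheaf) :=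
  (h.pullback f).eq_zero_iff

end

end Fermat.Agent.S26.H266
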