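import Mathlib
import Fermat.Agent.S26.H266.Dict
import Fermat.Agent.S26.H687.CurveCube
import Fermat.Agent.S26.Cube.Spec

/-!
# Row S26, block PIC, leaf DICT26 (helper266): the two `ModDict` interfaces for `Pic.cechPic`

* `modDictH687 : H687.ModDict Pic.cechPic` (relational form, input of `H687.curveCube`);
* `modDictCube : Cube.ModDict Pic.cechPic` (class map form, input of `Cube`'s `CurveCube` leaf).
-/

set_option autoImplicit false

universe u

open CategoryTheory AlgebraicGeometry

namespace Fermat.Agent.S26.H266

noncomputable section

/-- DICT26 for the Čech model, relational form. -/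
def modDictH687 : H687.ModDict Pic.cechPic.{u} where
  Rep c L := IsClassOf L c
  exists_rep c := by
    obtain ⟨L, hL⟩ := exists_isClassOf c
    exact ⟨L, hL.isInvertible, hL⟩
  rep_zero_iff _ _ h := h.eq_zero_iff
  rep_pullback f _ _ h := h.pullback f

/-- The class of an invertible module in the Čech Picard group. -/
def classOf {X : Scheme.{u}} (L : X.Modules) (hL : Scheme.Modules.IsInvertible L) :
    Pic.cechPic.Pic X :=
  (exists_isClassOf_of_isInvertible hL).choose

theorem isClassOf_classOf {X : Scheme.{u}} (L : X.Modules)
    (hL : Scheme.Modules.IsInvertible L) : IsClassOf L (classOf L hL) :=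
  (exists_isClassOf_of_isInvertible hL).choose_spec

theorem IsClassOf.classOf_eq {X : Scheme.{u}} {L : X.Modules} {a : Pic.cechPic.Pic X}
    (h : IsClassOf L a) (hL : Scheme.Modules.IsInvertible L) : classOf L hL = a :=
  (isClassOf_classOf L hL).unique h

/-- DICT26 for the Čech model, class map form. -/
def modDictCube : Cube.ModDict Pic.cechPic.{u} where
  cl L hL := classOf L hL
  cl_surj c := by
    obtain ⟨L, hL⟩ := exists_isClassOf c
    exact ⟨L, hL.isInvertible, hL.classOf_eq _⟩
  cl_eq_iff L L' hL hL' :=
    ((isClassOf_classOf L hL).nonempty_iso_iff (isClassOf_classOf L' hL')).symm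
  cl_unit X := (isClassOf_unit_zero X).classOf_eq _
  cl_pullback f L hL := ((isClassOf_classOf L hL).pullback f).classOf_eq _

end

end Fermat.Agent.S26.H266
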