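import Mathlib
import Fermat.Agent.S26.H266.Dict
import Fermat.Agent.S26.SpecCube
import Fermat.Agent.S25.H146.SheafSep

/-!
# Row S26, block PIC, leaf P4 (helper266): `Stmt.LocalOnBase` for the Čech model

A class `N` on `X × W` (`W` proper, geometrically integral, with a `K`-point `w₀`; `K`
algebraically closed) which is trivial over the members of an open cover of `X` is the pull-back
of its restriction to `X × w₀`.

Proof: DICT26 (`H266.Dict`) turns the class `N - p^* σ^* N` into a line bundle on `W × X`,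
rigidified along `w₀ × X` and trivial locally on `X`; by S25 SHEAF-SEP (`H146.sheafSep`, which
only uses `Γ(W × T, 𝒪) = Γ(T, 𝒪)`) it is trivial.
-/

set_option autoImplicit false

universe u

open CategoryTheory CategoryTheory.Limits AlgebraicGeometry AlgebraicGeometry.RelPicard
  NeronModelInfra

namespace Fermat.Agent.S26.H266

open Fermat.Agent.S25

noncomputable section

section Core

variable {K : Type u} [Field K] [IsAlgClosed K] {X W : Scheme.{u}}
  (x : X ⟶ Spec (CommRingCat.of K)) (w : W ⟶ Spec (CommRingCat.of K))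
  [IsProper w] [IsIntegral W] (w₀ : KPt w)

/-- P4 on `W × X` (the conventions of row S25): a class on `W × X` that is trivial on
`W × U` for the members `U` of an open cover of `X` is the pull-back of its restriction to
`w₀ × X`. -/
theorem localOnBase_swapped (N : Pic.cechPic.Pic (pullback w x))
    (h : ∀ p : X, ∃ U : X.Opens, p ∈ U ∧
      Pic.cechPic.map (baseChangeSnd w (⟨U.ι, rfl⟩ : SchemeHomOver (U.ι ≫ x) x)) N = 0) :
    N = Pic.cechPic.map (pullback.snd w x) (Pic.cechPic.map (rigSection w x w₀) N) := by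
  set σ : X ⟶ pullback w x := rigSection w x w₀ with hσ
  set π : pullback w x ⟶ X := pullback.snd w x with hπ
  have hσπ : σ ≫ π = 𝟙 X := by rw [hσ, hπ, rigSection, pullback.lift_snd]
  -- the rigidified class
  set N'' : Pic.cechPic.Pic (pullback w x) := N - Pic.cechPic.map π (Pic.cechPic.map σ N) with hN''
  have h1 : Pic.cechPic.map σ N'' = 0 := by
    rw [hN'', map_sub, ← Pic.cechPic.map_comp, hσπ, Pic.cechPic.map_id, sub_self]
  choose U hpU hU using h
  have h2 : ∀ p : X,
      Pic.cechPic.map (baseChangeSnd w (⟨(U p).ι, rfl⟩ : SchemeHomOver ((U p).ι ≫ x) x)) N'' = 0 := by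
    intro p
    set j := baseChangeSnd w (⟨(U p).ι, rfl⟩ : SchemeHomOver ((U p).ι ≫ x) x) with hj
    have e1 : j ≫ π = pullback.snd w ((U p).ι ≫ x) ≫ (U p).ι := by
      rw [hj, hπ, baseChangeSnd, pullback.lift_snd]
    have e2 : rigSection w ((U p).ι ≫ x) w₀ ≫ j = (U p).ι ≫ σ :=
      rigSection_baseChangeSnd w w₀ (⟨(U p).ι, rfl⟩ : SchemeHomOver ((U p).ι ≫ x) x)
    rw [hN'', map_sub, hU p, zero_sub, neg_eq_zero, ← Pic.cechPic.map_comp, e1, Pic.cechPic.map_comp,
      ← Pic.cechPic.map_comp (U p).ι σ, ← e2, Pic.cechPic.map_comp, hU p, map_zero, map_zero]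
  -- the rigidified line bundle
  have hL := isClassOf_lineBundle N''
  let M : RigidifiedLineBundle w w₀ x :=
    { L := lineBundle N''
      isInvertible := hL.isInvertible
      rigidified := (hL.map_eq_zero_iff σ).mp h1 }
  have hsep := H146.sheafSep K w w₀ x U (iSup_U_eq_top hpU) M (RigidifiedLineBundle.unit x)
    (fun p => by
      obtain ⟨e⟩ := (hL.map_eq_zero_iff
        (baseChangeSnd w (⟨(U p).ι, rfl⟩ : SchemeHomOver ((U p).ι ≫ x) x))).mp (h2 p)
      exact ⟨e ≪≫ (Scheme.Modules.pullbackUnitIso _).symm⟩)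
  have h3 : N'' = 0 := hL.eq_zero_iff.mpr hsep
  exact sub_eq_zero.mp h3

end Core

/-- **P4**: `Stmt.LocalOnBase` for the Čech model of the Picard functor. -/
theorem localOnBase (K : Type u) [Field K] [IsAlgClosed K] :
    Stmt.LocalOnBase Pic.cechPic.{u} K := by
  intro X W x w _ _ w₀ N h
  have : IsIntegral W := GeometricallyIntegral.isIntegral_of_subsingleton w
  set τ : pullback x w ⟶ pullback w x := (pullbackSymmetry x w).hom with hτ
  set τ' : pullback w x ⟶ pullback x w := (pullbackSymmetry x w).inv with hτ'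
  have hττ' : τ ≫ τ' = 𝟙 _ := (pullbackSymmetry x w).hom_inv_id
  have hτ_snd : τ ≫ pullback.snd w x = pullback.fst x w := pullbackSymmetry_hom_comp_snd x w
  have hτ_fst : τ ≫ pullback.fst w x = pullback.snd x w := pullbackSymmetry_hom_comp_fst x w
  have hinl : inl x w w₀ ≫ τ = rigSection w x w₀ := by
    apply pullback.hom_ext
    · rw [Category.assoc, hτ_fst, inl, pullback.lift_snd, rigSection, pullback.lift_fst]
    · rw [Category.assoc, hτ_snd, inl, pullback.lift_fst, rigSection, pullback.lift_snd]
  have hσ : rigSection w x w₀ ≫ τ' = inl x w w₀ := by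
    rw [← hinl, Category.assoc, hττ', Category.comp_id]
  have key := localOnBase_swapped x w w₀ (Pic.cechPic.map τ' N) (by
    intro p
    obtain ⟨U, hpU, hU⟩ := h p
    refine ⟨U, hpU, ?_⟩
    have e : baseChangeSnd w (⟨U.ι, rfl⟩ : SchemeHomOver (U.ι ≫ x) x) ≫ τ' =
        (pullbackSymmetry (U.ι ≫ x) w).inv ≫ prodMapLeft x (U.ι ≫ x) w U.ι rfl := by
      rw [hτ', Iso.comp_inv_eq, Category.assoc, Iso.eq_inv_comp]
      apply pullback.hom_ext
      · simp only [Category.assoc, pullbackSymmetry_hom_comp_fst, baseChangeSnd, prodMapLeft,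
          pullback.map, pullback.lift_fst, pullback.lift_snd, Category.comp_id]
      · simp only [Category.assoc, pullbackSymmetry_hom_comp_snd, baseChangeSnd, prodMapLeft,
          pullback.map, pullback.lift_fst, pullback.lift_snd, Category.comp_id,
          pullbackSymmetry_hom_comp_snd_assoc]
    rw [← Pic.cechPic.map_comp, e, Pic.cechPic.map_comp, hU, map_zero])
  have h5 := congrArg (Pic.cechPic.map τ) key
  have e1 : Pic.cechPic.map τ (Pic.cechPic.map τ' N) = N := by
    rw [← Pic.cechPic.map_comp, hττ', Pic.cechPic.map_id]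
  have e2 : Pic.cechPic.map (rigSection w x w₀) (Pic.cechPic.map τ' N) =
      Pic.cechPic.map (inl x w w₀) N := by
    rw [← Pic.cechPic.map_comp, hσ]
  have e3 : Pic.cechPic.map τ (Pic.cechPic.map (pullback.snd w x)
      (Pic.cechPic.map (inl x w w₀) N)) =
      Pic.cechPic.map (pullback.fst x w) (Pic.cechPic.map (inl x w w₀) N) := by
    rw [← Pic.cechPic.map_comp, hτ_snd]
  rw [e1, e2, e3] at h5
  exact h5

end

end Fermat.Agent.S26.H266
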